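-- Project H (S43), Layer 3: algebra maps out of power series rings into complete local rings.
--  * `algHom_ext_of_local`: such a map is determined by the images of the variables (in `𝔪`);
--  * `evalPS`: the map with prescribed images of the variables.
import Mathlib
import Fermat.Agent.TeamA.MvPS
import Fermat.Agent.S56lib.Dict.PowerSeriesSurj

set_option autoImplicit false

namespace Fermat.Agent.S43lib.Patch.Mod

open IsLocalRing MvPowerSeries Fermat.Agent.TeamA

variable {σ : Type} [Finite σ] {R : Type} [CommRing R] {A : Type} [CommRing A] [IsLocalRing A]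
  [Algebra R A]

/-- Two `R`-algebra maps `R⟦σ⟧ → A` into a separated local ring which agree on the variables, and map
them into the maximal ideal, are equal. -/
theorem algHom_ext_of_local [IsHausdorff (maximalIdeal A) A] (ψ ψ' : MvPowerSeries σ R →ₐ[R] A)
    (hψ : ∀ s, ψ (X s) ∈ maximalIdeal A) (h : ∀ s, ψ (X s) = ψ' (X s)) : ψ = ψ' := by
  ext f : 1
  rw [← sub_eq_zero]
  apply IsHausdorff.haus (inferInstance : IsHausdorff (maximalIdeal A) A)
  intro c
  rw [SModEq.zero, smul_eq_mul, Ideal.mul_top, ← Ideal.Quotient.eq]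
  have hext : (Ideal.Quotient.mkₐ R (maximalIdeal A ^ c)).comp ψ =
      (Ideal.Quotient.mkₐ R (maximalIdeal A ^ c)).comp ψ' := by
    refine algHom_ext_of_nilpotent ((maximalIdeal A).map (Ideal.Quotient.mk (maximalIdeal A ^ c))) c
      (Fermat.Agent.S56lib.Dict.map_mk_maximalIdeal_pow_eq_bot c) _ _ ?_ ?_
    · intro s
      rw [AlgHom.comp_apply]
      exact Ideal.mem_map_of_mem _ (hψ s)
    · intro s
      rw [AlgHom.comp_apply, AlgHom.comp_apply, h s]
  have := congrArg (fun φ => φ f) hext
  simpa only [AlgHom.comp_apply, Ideal.Quotient.mkₐ_eq_mk] using this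

variable [IsAdicComplete (maximalIdeal A) A]

/-- Evaluation of power series at a family of elements of the maximal ideal. -/
noncomputable def evalPS (x : σ → A) (hx : ∀ s, x s ∈ maximalIdeal A) : MvPowerSeries σ R →ₐ[R] A :=
  Classical.choose (Fermat.Agent.S56lib.Dict.exists_eval (𝒪 := R) x hx)

theorem evalPS_X (x : σ → A) (hx : ∀ s, x s ∈ maximalIdeal A) (s : σ) :
    evalPS (R := R) x hx (X s) = x s :=
  Classical.choose_spec (Fermat.Agent.S56lib.Dict.exists_eval (𝒪 := R) x hx) s

/-- A map with the same images of the variables is the evaluation map. -/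
theorem eq_evalPS (x : σ → A) (hx : ∀ s, x s ∈ maximalIdeal A) (ψ : MvPowerSeries σ R →ₐ[R] A)
    (h : ∀ s, ψ (X s) = x s) : ψ = evalPS x hx := by
  refine algHom_ext_of_local ψ _ (fun s => h s ▸ hx s) fun s => ?_
  rw [h s, evalPS_X]

end Fermat.Agent.S43lib.Patch.Mod
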