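-- Project H (S43), Layer 3: Cayley coordinates on a finite abelian `p`-group ring.
--
-- `z = (δ − 1)/(δ + 1)` (so that `δ ↦ δ⁻¹` is `z ↦ −z`), `u = (1 + z)/(1 − z)`.
--  * `cayley_sq_mul`: `z² (4 + t) = t` for `t = δ + δ⁻¹ − 2`;
--  * `pow_p_pow_sub_one_mem`: `w ≡ 1 mod 𝔪` ⇒ `w^(p^a) ≡ 1 mod 𝔪^(a+1)` in a local ring with `p ∈ 𝔪`;
--  * `ker_cayley_le`: the kernel of `Λ⟦z⟧ → RΔ`, `z_i ↦ (δ_i − 1)/(δ_i + 1)`, lies in `𝔪^n` as soon as
--    `RΔ` has the universal property of the group ring of `∏ ℤ/p^(a_i)` and `n ≤ a_i + 1`.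
import Mathlib
import Fermat.Agent.TeamA.MvPS
import Fermat.Agent.S43lib.Patch.Mod.Ext

set_option autoImplicit false

namespace Fermat.Agent.S43lib.Patch.Mod

open IsLocalRing MvPowerSeries Fermat.Agent.TeamA

section Identities

variable {C : Type*} [CommRing C]

/-- `z² (4 + t) = t` for `z (δ + 1) = δ − 1`, `t = δ + δ' − 2`, `δ δ' = 1`. -/
theorem cayley_sq_mul {δ δ' z : C} (hδ : δ * δ' = 1) (hz : z * (δ + 1) = δ - 1)
    (hu : IsUnit (δ + 1)) : z ^ 2 * (4 + (δ + δ' - 2)) = δ + δ' - 2 := by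
  have h1 : (z ^ 2 * (4 + (δ + δ' - 2)) - (δ + δ' - 2)) * (δ + 1) ^ 2 = 0 := by
    have e : (z ^ 2 * (4 + (δ + δ' - 2)) - (δ + δ' - 2)) * (δ + 1) ^ 2 =
        (z * (δ + 1)) ^ 2 * (4 + (δ + δ' - 2)) - (δ + δ' - 2) * (δ + 1) ^ 2 := by ring
    rw [e, hz]
    linear_combination (-4 : C) * hδ
  have h2 : IsUnit ((δ + 1) ^ 2) := hu.pow 2
  have h3 := h2.mul_left_eq_zero.mp h1
  exact sub_eq_zero.mp h3

/-- `u − 1 = z (u + 1)` for `u (1 − z) = 1 + z`. -/
theorem cayley_inv {u z : C} (hu : u * (1 - z) = 1 + z) : u - 1 = z * (u + 1) := by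
  have : u - 1 - z * (u + 1) = u * (1 - z) - (1 + z) := by ring
  rw [← sub_eq_zero, this, hu, sub_self]

end Identities

section PPow

variable {S : Type*} [CommRing S] [IsLocalRing S] {p : ℕ} (hp : (p : S) ∈ maximalIdeal S)

include hp in
theorem pow_p_sub_one_mem {w : S} {k : ℕ} (hw : w - 1 ∈ maximalIdeal S ^ k)
    (hw1 : w - 1 ∈ maximalIdeal S) : w ^ p - 1 ∈ maximalIdeal S ^ (k + 1) := by
  have h1 : w ^ p - 1 = (w - 1) * ∑ i ∈ Finset.range p, w ^ i := by
    rw [mul_comm]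
    exact (geom_sum_mul w p).symm
  have h2 : ∑ i ∈ Finset.range p, w ^ i ∈ maximalIdeal S := by
    have h3 : ∑ i ∈ Finset.range p, w ^ i - (p : S) ∈ maximalIdeal S := by
      have e : ∑ i ∈ Finset.range p, w ^ i - (p : S) = ∑ i ∈ Finset.range p, (w ^ i - 1) := by
        rw [Finset.sum_sub_distrib]
        simp
      rw [e]
      refine Ideal.sum_mem _ fun i _ => ?_
      have e2 : w ^ i - 1 = (w - 1) * ∑ j ∈ Finset.range i, w ^ j := by
        rw [mul_comm]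
        exact (geom_sum_mul w i).symm
      rw [e2]
      exact Ideal.mul_mem_right _ _ hw1
    have := Ideal.add_mem _ h3 hp
    rwa [sub_add_cancel] at this
  rw [h1, pow_succ]
  exact Ideal.mul_mem_mul hw h2

include hp in
/-- `w ≡ 1 mod 𝔪` ⇒ `w^(p^a) ≡ 1 mod 𝔪^(a+1)`. -/
theorem pow_p_pow_sub_one_mem {w : S} (hw1 : w - 1 ∈ maximalIdeal S) (a : ℕ) :
    w ^ p ^ a - 1 ∈ maximalIdeal S ^ (a + 1) := by
  induction a with
  | zero => simpa using hw1
  | succ a ih =>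
    rw [pow_succ p a, pow_mul]
    refine pow_p_sub_one_mem hp ih ?_
    exact Ideal.pow_le_self (Nat.succ_ne_zero a) ih

end PPow

section Kernel

variable {Λ : Type} [CommRing Λ] [IsLocalRing Λ] {m : ℕ} {p : ℕ}
  {RΔ : Type} [CommRing RΔ] [IsLocalRing RΔ] [IsAdicComplete (maximalIdeal RΔ) RΔ] [Algebra Λ RΔ]

local notation "SS" => MvPowerSeries (Fin m) Λ

theorem isUnit_one_sub_X (i : Fin m) : IsUnit (1 - X i : SS) := by
  rw [MvPowerSeries.isUnit_iff_constantCoeff, map_sub, map_one, constantCoeff_X, sub_zero]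
  exact isUnit_one

/-- The element `u_i = (1 + z_i)/(1 − z_i)` of `Λ⟦z⟧`. -/
noncomputable def uS (i : Fin m) : SS :=
  ((1 : SS) + X i) * (((isUnit_one_sub_X (Λ := Λ) i).unit⁻¹ : SSˣ) : SS)

theorem uS_mul (i : Fin m) : uS (Λ := Λ) i * (1 - X i) = 1 + X i := by
  unfold uS
  rw [mul_assoc]
  have : (((isUnit_one_sub_X (Λ := Λ) i).unit⁻¹ : SSˣ) : SS) * (1 - X i) = 1 := by
    have := (isUnit_one_sub_X (Λ := Λ) i).unit.inv_mul
    rwa [IsUnit.unit_spec] at this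
  rw [this, mul_one]

theorem uS_sub_one (i : Fin m) : uS (Λ := Λ) i - 1 = X i * (uS i + 1) :=
  cayley_inv (uS_mul i)

theorem uS_sub_one_mem (i : Fin m) : uS (Λ := Λ) i - 1 ∈ maximalIdeal SS := by
  rw [uS_sub_one]
  refine Ideal.mul_mem_right _ _ ?_
  rw [mem_maximalIdeal_mvPowerSeries_iff, constantCoeff_X]
  exact zero_mem _

theorem isUnit_uS_add_one (h2 : IsUnit (2 : Λ)) (i : Fin m) : IsUnit (uS (Λ := Λ) i + 1) := by
  have h : (uS (Λ := Λ) i + 1) * (1 - X i) = 2 := by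
    rw [add_mul, uS_mul]
    ring
  have h2' : IsUnit (2 : SS) := by
    have := h2.map (algebraMap Λ SS)
    rwa [map_ofNat] at this
  rw [← h] at h2'
  exact isUnit_of_mul_isUnit_left h2'

variable (hp : (p : Λ) ∈ maximalIdeal Λ) (h2 : IsUnit (2 : Λ))
  (δ : Fin m → RΔˣ) (a : Fin m → ℕ)
  (z : Fin m → RΔ) (hz : ∀ i, z i * ((δ i : RΔ) + 1) = (δ i : RΔ) - 1)
  (hzmem : ∀ i, z i ∈ maximalIdeal RΔ)
  (hlift : ∀ (C : Type) [CommRing C] [Algebra Λ C] (u : Fin m → C), (∀ i, u i ^ p ^ a i = 1) →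
    ∃ ψ : RΔ →ₐ[Λ] C, ∀ i, ψ (δ i) = u i)

include hp h2 hz hlift in
/-- **The kernel of the Cayley presentation is small.** -/
theorem ker_cayley_le (n : ℕ) (hn : ∀ i, n ≤ a i + 1) (f : SS)
    (hf : evalPS (R := Λ) z hzmem f = 0) : f ∈ maximalIdeal SS ^ n := by
  have hpS : ((p : ℕ) : SS) ∈ maximalIdeal SS := by
    rw [mem_maximalIdeal_mvPowerSeries_iff]
    have : constantCoeff ((p : ℕ) : SS) = ((p : ℕ) : Λ) := by
      rw [← map_natCast (C (σ := Fin m) (R := Λ)), constantCoeff_C]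
    rw [this]
    exact hp
  -- the images of the `u_i` in `S ⧸ 𝔪^n` have order dividing `p^(a_i)`
  have hu : ∀ i, (Ideal.Quotient.mk (maximalIdeal SS ^ n) (uS i)) ^ p ^ a i = 1 := by
    intro i
    rw [← map_pow, ← map_one (Ideal.Quotient.mk (maximalIdeal SS ^ n)), Ideal.Quotient.eq]
    exact Ideal.pow_le_pow_right (hn i) (pow_p_pow_sub_one_mem hpS (uS_sub_one_mem i) (a i))
  obtain ⟨ψ, hψ⟩ := hlift (SS ⧸ maximalIdeal SS ^ n) _ hu
  -- compare `ψ ∘ κ₀` with the projection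
  have hcomp : ψ.comp (evalPS (R := Λ) z hzmem) = Ideal.Quotient.mkₐ Λ (maximalIdeal SS ^ n) := by
    have hval : ∀ i, ψ (z i) = Ideal.Quotient.mk (maximalIdeal SS ^ n) (X i) := by
      intro i
      have hunit : IsUnit (Ideal.Quotient.mk (maximalIdeal SS ^ n) (uS i + 1)) :=
        (isUnit_uS_add_one h2 i).map _
      have h1 : ψ (z i) * Ideal.Quotient.mk (maximalIdeal SS ^ n) (uS i + 1) =
          Ideal.Quotient.mk (maximalIdeal SS ^ n) (X i) *
            Ideal.Quotient.mk (maximalIdeal SS ^ n) (uS i + 1) := by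
        have e1 : Ideal.Quotient.mk (maximalIdeal SS ^ n) (uS i + 1) = ψ ((δ i : RΔ) + 1) := by
          rw [map_add, map_add, map_one, map_one, hψ]
        rw [e1, ← map_mul, hz, map_sub, map_one, hψ, ← e1, ← map_mul, ← uS_sub_one, map_sub,
          map_one]
      exact hunit.mul_left_injective h1
    refine algHom_ext_of_nilpotent
      ((maximalIdeal SS).map (Ideal.Quotient.mk (maximalIdeal SS ^ n))) n
      (Fermat.Agent.S56lib.Dict.map_mk_maximalIdeal_pow_eq_bot n) _ _ ?_ ?_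
    · intro i
      rw [AlgHom.comp_apply, evalPS_X, hval]
      refine Ideal.mem_map_of_mem _ ?_
      rw [mem_maximalIdeal_mvPowerSeries_iff, constantCoeff_X]
      exact zero_mem _
    · intro i
      rw [AlgHom.comp_apply, evalPS_X, hval]
      rfl
  have := congrArg (fun φ => φ f) hcomp
  simp only [AlgHom.comp_apply, hf, map_zero, Ideal.Quotient.mkₐ_eq_mk] at this
  exact Ideal.Quotient.eq_zero_iff_mem.mp this.symm

include hz in
/-- `δ_i` is the image of `u_i`. -/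
theorem evalPS_uS (i : Fin m) (hu1 : IsUnit ((δ i : RΔ) + 1)) :
    evalPS (R := Λ) z hzmem (uS i) = δ i := by
  -- `κ(u)(1 − z) = 1 + z` and `δ (1 − z) = 1 + z`
  have h1 : evalPS (R := Λ) z hzmem (uS i) * (1 - z i) = 1 + z i := by
    have := congrArg (evalPS (R := Λ) z hzmem) (uS_mul (Λ := Λ) i)
    rwa [map_mul, map_sub, map_add, map_one, evalPS_X] at this
  have h3 : (1 - z i) * ((δ i : RΔ) + 1) = 2 := by
    rw [sub_mul, one_mul, hz]
    ring
  have h4 : (1 + z i) * ((δ i : RΔ) + 1) = 2 * (δ i : RΔ) := by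
    rw [add_mul, one_mul, hz]
    ring
  have h5 : evalPS (R := Λ) z hzmem (uS i) * 2 = 2 * (δ i : RΔ) := by
    calc evalPS (R := Λ) z hzmem (uS i) * 2
        = evalPS (R := Λ) z hzmem (uS i) * ((1 - z i) * ((δ i : RΔ) + 1)) := by rw [h3]
      _ = (1 + z i) * ((δ i : RΔ) + 1) := by rw [← mul_assoc, h1]
      _ = 2 * (δ i : RΔ) := h4
  -- `2` is a non-zero-divisor here because `(1 − z)(δ + 1) = 2` is a product of units
  have hunit2 : IsUnit (2 : RΔ) := by
    rw [← h3]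
    refine IsUnit.mul ?_ hu1
    have hloc : IsUnit (1 - z i) := by
      by_contra hcon
      have hm : 1 - z i ∈ maximalIdeal RΔ := (mem_maximalIdeal _).mpr hcon
      have := Ideal.add_mem _ hm (hzmem i)
      rw [sub_add_cancel] at this
      exact (Ideal.ne_top_iff_one _).mp (IsLocalRing.maximalIdeal.isMaximal RΔ).ne_top this
    exact hloc
  have h6 : evalPS (R := Λ) z hzmem (uS i) * 2 = (δ i : RΔ) * 2 := by rw [h5, mul_comm]
  exact hunit2.mul_left_injective h6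

end Kernel

end Fermat.Agent.S43lib.Patch.Mod
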