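-- Project H (S43), Layer 3: the local relations at the primes of `T` from the `det`/`trace`/tame
-- identities (abstract form): a ring map `g : 𝒪⟦IA.Var T h⟧ → R` kills `relsA D r` (resp. `relsB D r`).
import Mathlib
import Fermat.Agent.S43lib.IA.BlockDefs
import Fermat.Agent.S43lib.Loc.TameRel

set_option autoImplicit false

namespace Fermat.Agent.S43lib.Patch.Mod

open MvPowerSeries

variable {𝒪 : Type} [CommRing 𝒪] {ϖ : 𝒪} {T : Type} {h : ℕ} (D : T → IA.LocalDatum 𝒪 ϖ) (r : T)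
  {R : Type} [CommRing R] [Algebra 𝒪 R] (g : MvPowerSeries (IA.Var T h) 𝒪 →+* R)

theorem map_trace_fin_two (A : Matrix (Fin 2) (Fin 2) (MvPowerSeries (IA.Var T h) 𝒪)) :
    g A.trace = (g.mapMatrix A).trace := by
  rw [Matrix.trace_fin_two, Matrix.trace_fin_two, map_add]
  rfl

theorem map_entry (A : Matrix (Fin 2) (Fin 2) (MvPowerSeries (IA.Var T h) 𝒪)) (i j : Fin 2) :
    g (A i j) = (g.mapMatrix A) i j := rfl

/-- The common relations. -/
theorem relsCommon_map_eq_zero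
    (hdetF : (g.mapMatrix (IA.PhiMat (h := h) D r)).det = g (C (D r).d₀))
    (hdetS : (g.mapMatrix (IA.SigMat 𝒪 h r)).det = 1) :
    ∀ t ∈ IA.relsCommon (h := h) D r, g t = 0 := by
  intro t ht
  rcases ht with rfl | ht
  · rw [map_sub, RingHom.map_det, hdetF, sub_self]
  · rw [Set.mem_singleton_iff] at ht
    subst ht
    rw [map_sub, RingHom.map_det, hdetS, map_one, sub_self]

/-- **Type `(χ, χ⁻¹)`.** -/
theorem relsA_map_eq_zero [IsDomain 𝒪] (hC : ∀ c, g (C c) = algebraMap 𝒪 R c)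
    (p : ℕ) (hζ : ((D r).ζ : 𝒪) ^ p = 1) (rN : ℕ) (hr1 : 1 ≤ rN) (hrp : rN ≡ 1 [MOD p])
    (hdetF : (g.mapMatrix (IA.PhiMat (h := h) D r)).det = g (C (D r).d₀))
    (hdetS : (g.mapMatrix (IA.SigMat 𝒪 h r)).det = 1)
    (htr : (g.mapMatrix (IA.SigMat 𝒪 h r)).trace =
      algebraMap 𝒪 R (((D r).ζ : 𝒪) + (((D r).ζ⁻¹ : 𝒪ˣ) : 𝒪)))
    (htame : g.mapMatrix (IA.PhiMat (h := h) D r) * g.mapMatrix (IA.SigMat 𝒪 h r) =
      (g.mapMatrix (IA.SigMat 𝒪 h r)) ^ rN * g.mapMatrix (IA.PhiMat (h := h) D r)) :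
    ∀ t ∈ IA.relsA (h := h) D r, g t = 0 := by
  intro t ht
  rcases ht with (ht | ht) | ht
  · exact relsCommon_map_eq_zero D r g hdetF hdetS t ht
  · rw [Set.mem_singleton_iff] at ht
    subst ht
    rw [map_sub, map_trace_fin_two, htr, hC, sub_self]
  · obtain ⟨⟨i, j⟩, rfl⟩ := ht
    have hcomm := Loc.mul_comm_of_tame (D r).ζ p hζ (D r).hζ2 _ _ rN hr1 hrp htame htr hdetS
    rw [map_entry, map_sub, map_mul, map_mul, hcomm, sub_self]
    rfl

/-- **Unipotent type.** -/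
theorem relsB_map_eq_zero (hC : ∀ c, g (C c) = algebraMap 𝒪 R c)
    (rN : ℕ) (hrr : (D r).rr = (rN : 𝒪))
    (hdetF : (g.mapMatrix (IA.PhiMat (h := h) D r)).det = g (C (D r).d₀))
    (hdetS : (g.mapMatrix (IA.SigMat 𝒪 h r)).det = 1)
    (htr : (g.mapMatrix (IA.SigMat 𝒪 h r)).trace = 2)
    (htame : g.mapMatrix (IA.PhiMat (h := h) D r) * g.mapMatrix (IA.SigMat 𝒪 h r) =
      (g.mapMatrix (IA.SigMat 𝒪 h r)) ^ rN * g.mapMatrix (IA.PhiMat (h := h) D r)) :
    ∀ t ∈ IA.relsB (h := h) D r, g t = 0 := by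
  intro t ht
  rcases ht with (ht | ht) | ht
  · exact relsCommon_map_eq_zero D r g hdetF hdetS t ht
  · rw [Set.mem_singleton_iff] at ht
    subst ht
    rw [map_sub, map_trace_fin_two, htr, map_ofNat, sub_self]
  · obtain ⟨⟨i, j⟩, rfl⟩ := ht
    have hrel := Loc.mul_sub_one_eq_of_tame _ _ rN htame htr hdetS
    have hCr : g (C (D r).rr) = (rN : R) := by
      rw [hrr, map_natCast, map_natCast]
    rw [map_entry, map_sub, map_mul, map_sub, map_one, hrel]
    have : g.mapMatrix ((C (D r).rr : MvPowerSeries (IA.Var T h) 𝒪) •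
        ((IA.SigMat 𝒪 h r - 1) * IA.PhiMat D r)) =
        (rN : R) • ((g.mapMatrix (IA.SigMat 𝒪 h r) - 1) * g.mapMatrix (IA.PhiMat D r)) := by
      ext a b
      rw [← map_entry, Matrix.smul_apply, Matrix.smul_apply, smul_eq_mul, map_mul, hCr,
        smul_eq_mul, map_entry, map_mul, map_sub, map_one]
    rw [this, sub_self]
    rfl

end Fermat.Agent.S43lib.Patch.Mod
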