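-- Project H (S43), Layer 3, MAIN: `LevelSystemBlock₂ ⇐ ModLevelBlock`, hence
--   `IharaBlock ⇐ ModLevelBlock + IA.IABlock`.
import Mathlib
import Fermat.Agent.S43lib.PatchIface2
import Fermat.Agent.S43lib.PatchIfaceMod
import Fermat.Agent.S43lib.Patch.Mod.Level
import Fermat.Agent.S43lib.Patch.Mod.Kill
import Fermat.Agent.S43lib.Patch.Assemble2

set_option autoImplicit false

namespace Fermat.Agent.S43lib

open IsLocalRing MvPowerSeries

variable {P : FreyPackage} {N q : ℕ}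

/-- The level system attached to a base and levels of all depths. -/
noncomputable def levelSystem₂OfMod (Bs : ModBase P N q) (Lv : ∀ n, ModLevel Bs n) :
    LevelSystem₂ P N q where
  𝒪 := Bs.𝒪
  ϖ := Bs.ϖ
  ϖ_ne_zero := Bs.ϖ_ne_zero
  maximalIdeal_eq := Bs.maximalIdeal_eq
  isUnit_two := Bs.isUnit_two
  Λ := Bs.Λ
  χA := Bs.χA
  χB := Bs.χB
  ker_sup := Bs.ker_sup
  T := Bs.T
  q₀ := Bs.q₀
  h := Bs.h
  m := Bs.m
  d := Bs.d
  hm := Bs.hm
  hd := Bs.hd
  D := Bs.D
  T0 := Bs.T0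
  M0 := Bs.M0
  L := fun n => (Lv n).patchLevel
  s_X := fun n i => by rw [ModLevel.patchLevel_s, rename_X]
  c := fun n i => (Lv n).cc i
  c_mem := fun n i => (Lv n).cc_mem i
  sq_kill := fun n i x => (Lv n).sq_kill i x
  killA := fun n r t ht x => (Lv n).killA r t ht x
  killB := fun n r t ht x => (Lv n).killB r t ht x
  J₀ := Bs.J₀
  e_mono := fun n => (Lv n).e_mono
  readout := Bs.readout

/-- **Layer 3.** -/
theorem levelSystemBlock₂_of_modLevelBlock (h : ModLevelBlock) : LevelSystemBlock₂ := by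
  intro P N q h1 h2 h3 h4 h5 h6 h7 h8 h9
  obtain ⟨Bs, hLv⟩ := h P N q h1 h2 h3 h4 h5 h6 h7 h8 h9
  exact ⟨levelSystem₂OfMod Bs fun n => (hLv n).some⟩

/-- **`IharaBlock` from the modular side in its algebraic form and the Ihara-avoidance block.** -/
theorem iharaBlock_of_modLevelBlock (h : ModLevelBlock) (hIA : IA.IABlock.{0}) : IharaBlock :=
  iharaBlock_of_blocks₂ (levelSystemBlock₂_of_modLevelBlock h) hIA

end Fermat.Agent.S43lib
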